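import Mathlib
import Fermat.Agent.MUL.Orig.S05.H65.Sym
import Fermat.Agent.MUL.Orig.F3.EigenReduction

/-!
# Ladder polynomials for multiplication by `n` on a Weierstrass curve (x-coordinate only)

We define polynomials `ladF W n`, `ladG W n` over any commutative ring such that, over a field,
for every affine point `P` with `n • P ≠ 0` one has `F_n(x(P)) = x(n • P) * G_n(x(P))`, and
`G_n(x(P)) = 0` whenever `n • P = 0`.  These are *not* the reduced division polynomials (they carry
common factors), but they are defined by a division-free recursion, which makes the proof a plain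
induction from the symmetric sum formula.
-/

set_option autoImplicit false

namespace Fermat.Agent.Torsion

open Polynomial S05H65

section Defs

variable {R : Type*} [CommRing R] (W : WeierstrassCurve R)

/-- The square of the difference `F - x G`. -/
noncomputable def ladD (F G : R[X]) : R[X] := (F - X * G) ^ 2

/-- The numerator of the symmetric sum formula. -/
noncomputable def ladN (F G : R[X]) : R[X] :=
  2 * F * X * (F + X * G) + C W.b₂ * F * G * X + C W.b₄ * (F + X * G) * G + C W.b₆ * G ^ 2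

/-- One step of the ladder: from `(F_{n-1},G_{n-1})` and `(F_n,G_n)` to `(F_{n+1},G_{n+1})`. -/
noncomputable def ladStep (p q : R[X] × R[X]) : R[X] × R[X] :=
  (ladN W q.1 q.2 * p.2 - p.1 * ladD q.1 q.2, ladD q.1 q.2 * p.2)

/-- Numerator of the duplication formula. -/
noncomputable def ladF2 : R[X] := X ^ 4 - C W.b₄ * X ^ 2 - C (2 * W.b₆) * X - C W.b₈

/-- Denominator of the duplication formula. -/
noncomputable def ladG2 : R[X] := C 4 * X ^ 3 + C W.b₂ * X ^ 2 + C (2 * W.b₄) * X + C W.b₆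

/-- Auxiliary: the pair `((F_{k+1},G_{k+1}),(F_{k+2},G_{k+2}))`. -/
noncomputable def ladAux : ℕ → (R[X] × R[X]) × (R[X] × R[X])
  | 0 => ((X, 1), (ladF2 W, ladG2 W))
  | k + 1 => ((ladAux k).2, ladStep W (ladAux k).1 (ladAux k).2)

/-- Ladder numerator `F_n` (junk value `F_0 = F_1`). -/
noncomputable def ladF (n : ℕ) : R[X] := (ladAux W (n - 1)).1.1

/-- Ladder denominator `G_n` (junk value `G_0 = G_1`). -/
noncomputable def ladG (n : ℕ) : R[X] := (ladAux W (n - 1)).1.2

lemma ladAux_fst_eq (k : ℕ) : (ladAux W (k + 1)).1 = (ladAux W k).2 := rfl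

lemma ladAux_snd (k : ℕ) : (ladAux W k).2 = (ladF W (k + 2), ladG W (k + 2)) := by
  simp [ladF, ladG, ladAux]

lemma ladAux_fst (k : ℕ) : (ladAux W k).1 = (ladF W (k + 1), ladG W (k + 1)) := by
  simp [ladF, ladG]

@[simp] lemma ladF_one : ladF W 1 = X := rfl
@[simp] lemma ladG_one : ladG W 1 = 1 := rfl
@[simp] lemma ladF_two : ladF W 2 = ladF2 W := rfl
@[simp] lemma ladG_two : ladG W 2 = ladG2 W := rfl

lemma ladF_add_three (k : ℕ) :
    ladF W (k + 3) = ladN W (ladF W (k + 2)) (ladG W (k + 2)) * ladG W (k + 1)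
      - ladF W (k + 1) * ladD (ladF W (k + 2)) (ladG W (k + 2)) := by
  have h : (ladAux W (k + 1)).2 = ladStep W (ladAux W k).1 (ladAux W k).2 := rfl
  rw [ladAux_snd, ladAux_snd, ladAux_fst] at h
  have := congrArg Prod.fst h
  simpa [ladStep] using this

lemma ladG_add_three (k : ℕ) :
    ladG W (k + 3) = ladD (ladF W (k + 2)) (ladG W (k + 2)) * ladG W (k + 1) := by
  have h : (ladAux W (k + 1)).2 = ladStep W (ladAux W k).1 (ladAux W k).2 := rfl
  rw [ladAux_snd, ladAux_snd, ladAux_fst] at h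
  have := congrArg Prod.snd h
  simpa [ladStep] using this

end Defs

section Points

variable {K : Type*} [Field K] [DecidableEq K] {W : WeierstrassCurve.Affine K}

omit [DecidableEq K] in
lemma eval_ladD (F G : K[X]) (x : K) : (ladD F G).eval x = (F.eval x - x * G.eval x) ^ 2 := by
  simp [ladD]

omit [DecidableEq K] in
lemma eval_ladN (F G : K[X]) (x : K) :
    (ladN W F G).eval x = 2 * F.eval x * x * (F.eval x + x * G.eval x)
      + W.b₂ * F.eval x * G.eval x * x + W.b₄ * (F.eval x + x * G.eval x) * G.eval x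
      + W.b₆ * G.eval x ^ 2 := by
  simp [ladN]

omit [DecidableEq K] in
lemma eval_ladF2 (x : K) : (ladF2 W).eval x = dupNum W x := by
  simp [ladF2, dupNum]

omit [DecidableEq K] in
lemma eval_ladG2 (x : K) : (ladG2 W).eval x = psi2sq W x := by
  simp [ladG2, psi2sq]

/-- The ladder property at level `n` for the point `P`. -/
def LadProp (W : WeierstrassCurve.Affine K) (n : ℕ) (P : W.Point) : Prop :=
  (n • P ≠ 0 → (ladF W n).eval (px P) = px (n • P) * (ladG W n).eval (px P)) ∧
  (n • P = 0 → (ladG W n).eval (px P) = 0)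

lemma ladProp_one {P : W.Point} (_hP : P ≠ 0) : LadProp W 1 P := by
  refine ⟨fun _ => by simp, fun h => ?_⟩
  rw [one_smul] at h
  exact absurd h _hP

lemma ladProp_two {P : W.Point} (hP : P ≠ 0) : LadProp W 2 P := by
  refine ⟨fun h => ?_, fun h => ?_⟩
  · rw [two_nsmul] at h ⊢
    rw [ladF_two, ladG_two, eval_ladF2, eval_ladG2]
    exact (px_add_self hP h).symm
  · rw [two_nsmul] at h
    rw [ladG_two, eval_ladG2]
    exact (add_self_eq_zero_iff hP).mp h

lemma px_eq_of_eq_or_eq_neg {P Q : W.Point} (h : P = Q ∨ P = -Q) : px P = px Q := by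
  rcases h with rfl | rfl
  · rfl
  · exact px_neg Q

lemma ladProp_step {P : W.Point} (hP : P ≠ 0) (k : ℕ)
    (h1 : LadProp W (k + 1) P) (h2 : LadProp W (k + 2) P) : LadProp W (k + 3) P := by
  have e3 : (k + 3) • P = (k + 2) • P + P := succ_nsmul P (k + 2)
  have e1 : (k + 2) • P = (k + 1) • P + P := succ_nsmul P (k + 1)
  have e1' : (k + 1) • P = (k + 2) • P - P := by rw [e1]; abel
  set x := px P with hx
  set F2 := (ladF W (k + 2)).eval x with hF2
  set G2 := (ladG W (k + 2)).eval x with hG2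
  set F1 := (ladF W (k + 1)).eval x with hF1
  set G1 := (ladG W (k + 1)).eval x with hG1
  have evF : (ladF W (k + 3)).eval x
      = (2 * F2 * x * (F2 + x * G2) + W.b₂ * F2 * G2 * x + W.b₄ * (F2 + x * G2) * G2
          + W.b₆ * G2 ^ 2) * G1 - F1 * (F2 - x * G2) ^ 2 := by
    rw [ladF_add_three]; simp [eval_ladN, eval_ladD, hF2, hG2, hF1, hG1]
  have evG : (ladG W (k + 3)).eval x = (F2 - x * G2) ^ 2 * G1 := by
    rw [ladG_add_three]; simp [eval_ladD, hF2, hG2, hG1]
  by_cases hn : (k + 2) • P = 0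
  · -- Case A: nP = 0
    have hG2z : G2 = 0 := h2.2 hn
    have h3 : (k + 3) • P = P := by rw [e3, hn, zero_add]
    have h1' : (k + 1) • P = -P := by rw [e1', hn, zero_sub]
    have h1ne : (k + 1) • P ≠ 0 := by rw [h1']; exact neg_ne_zero.mpr hP
    have hF1 : F1 = x * G1 := by
      have := h1.1 h1ne
      rw [h1', px_neg] at this
      exact this
    refine ⟨fun _ => ?_, fun h => absurd (h3 ▸ h) hP⟩
    rw [evF, evG, h3, hG2z, hF1]
    ring
  · -- Case B: nP ≠ 0
    have hF2 : F2 = px ((k + 2) • P) * G2 := h2.1 hn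
    by_cases hpx : px ((k + 2) • P) = x
    · -- nP = ± P
      have hD : F2 - x * G2 = 0 := by rw [hF2, hpx]; ring
      rcases eq_or_eq_neg_of_px_eq hn hP hpx with hpos | hneg
      · -- nP = P, so (n-1)P = 0
        have h1z : (k + 1) • P = 0 := by rw [e1', hpos, sub_self]
        have hG1z : G1 = 0 := h1.2 h1z
        refine ⟨fun _ => ?_, fun _ => ?_⟩
        · rw [evF, evG, hD, hG1z]; ring
        · rw [evG, hD]; ring
      · -- nP = -P, so (n+1)P = 0
        have h3z : (k + 3) • P = 0 := by rw [e3, hneg, neg_add_cancel]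
        refine ⟨fun h => absurd h3z h, fun _ => ?_⟩
        rw [evG, hD]; ring
    · -- generic case
      have hsum := px_add_add_px_sub (W := W) hn hP hpx
      have h3ne : (k + 3) • P ≠ 0 := by
        rw [e3]; exact add_ne_zero_of_px_ne hpx hn hP
      have h1ne : (k + 1) • P ≠ 0 := by
        rw [e1']; exact sub_ne_zero_of_px_ne hpx
      have hF1 : F1 = px ((k + 1) • P) * G1 := h1.1 h1ne
      refine ⟨fun _ => ?_, fun h => absurd h h3ne⟩
      rw [← e3, ← e1'] at hsum
      rw [evF, evG, hF1, hF2]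
      rw [← hx] at hsum
      linear_combination (-(G2 ^ 2 * G1)) * hsum

theorem ladProp {P : W.Point} (hP : P ≠ 0) (n : ℕ) (hn : 1 ≤ n) : LadProp W n P := by
  have key : ∀ k : ℕ, LadProp W (k + 1) P ∧ LadProp W (k + 2) P := by
    intro k
    induction k with
    | zero => exact ⟨ladProp_one hP, ladProp_two hP⟩
    | succ k ih => exact ⟨ih.2, ladProp_step hP k ih.1 ih.2⟩
  obtain ⟨k, rfl⟩ : ∃ k, n = k + 1 := ⟨n - 1, by omega⟩
  exact (key k).1

end Points


section DoubleRoot

variable {K : Type*} [Field K] [DecidableEq K] {W : WeierstrassCurve.Affine K}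

/-- If `(k+3) • P = 0` with `P ≠ 0`, then `x(P)` is a double root of `ladG W (k+3)`. -/
theorem sq_dvd_ladG_of_smul_eq_zero {P : W.Point} (hP : P ≠ 0) (k : ℕ) (h : (k + 3) • P = 0) :
    (X - C (px P)) ^ 2 ∣ ladG W (k + 3) := by
  have e3 : (k + 3) • P = (k + 2) • P + P := succ_nsmul P (k + 2)
  have h2 : (k + 2) • P = -P := by
    rw [e3] at h
    exact eq_neg_of_add_eq_zero_left h
  have h2ne : (k + 2) • P ≠ 0 := by rw [h2]; exact neg_ne_zero.mpr hP
  have hF := (ladProp hP (k + 2) (by omega)).1 h2ne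
  rw [h2, px_neg] at hF
  have hroot : (ladF W (k + 2) - X * ladG W (k + 2)).IsRoot (px P) := by
    simp [Polynomial.IsRoot, hF]
  have hdvd : (X - C (px P)) ∣ ladF W (k + 2) - X * ladG W (k + 2) :=
    Polynomial.dvd_iff_isRoot.mpr hroot
  rw [ladG_add_three, ladD]
  exact Dvd.dvd.mul_right (pow_dvd_pow_of_dvd hdvd 2) _

/-- If `n • P = 0` with `P ≠ 0` and `1 ≤ n`, then `x(P)` is a root of `ladG W n`. -/
theorem ladG_eval_eq_zero_of_smul_eq_zero {P : W.Point} (hP : P ≠ 0) {n : ℕ} (hn : 1 ≤ n)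
    (h : n • P = 0) : (ladG W n).eval (px P) = 0 :=
  (ladProp hP n hn).2 h

/-- If `n • P ≠ 0` with `P ≠ 0` and `1 ≤ n`, then `F_n(x(P)) = x(nP) G_n(x(P))`. -/
theorem ladF_eval_eq {P : W.Point} (hP : P ≠ 0) {n : ℕ} (hn : 1 ≤ n) (h : n • P ≠ 0) :
    (ladF W n).eval (px P) = px (n • P) * (ladG W n).eval (px P) :=
  (ladProp hP n hn).1 h

end DoubleRoot

end Fermat.Agent.Torsion
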