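import Mathlib
import Fermat.Agent.MUL.Orig.Lib.Torsion.Ladder
import Fermat.Agent.MUL.Lib.BadRed.Mod.ValInf

/-!
# Degrees and leading coefficients of the ladder polynomials

Over any commutative ring: `natDegree (ladG W n) ≤ ladDeg n`, `coeff (ladG W n) (ladDeg n) = n² aₙ`,
`natDegree (ladF W n) ≤ ladDeg n + 1`, `coeff (ladF W n) (ladDeg n + 1) = aₙ`, where `aₙ = ladLead n`
is a natural number all of whose prime factors are `≤ n - 2`.
-/

set_option autoImplicit false

namespace Fermat.Agent.Torsion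

open Polynomial

section Lead

variable {R : Type*} [CommRing R]

/-- `f` has degree at most `d` and its coefficient at `d` is `c`. -/
def Lead (f : R[X]) (d : ℕ) (c : R) : Prop := f.natDegree ≤ d ∧ f.coeff d = c

lemma Lead.mul {f g : R[X]} {d e : ℕ} {c c' : R} (hf : Lead f d c) (hg : Lead g e c') :
    Lead (f * g) (d + e) (c * c') :=
  ⟨natDegree_mul_le_of_le hf.1 hg.1, by
    rw [coeff_mul_add_eq_of_natDegree_le hf.1 hg.1, hf.2, hg.2]⟩

lemma Lead.add {f g : R[X]} {d : ℕ} {c c' : R} (hf : Lead f d c) (hg : Lead g d c') :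
    Lead (f + g) d (c + c') :=
  ⟨natDegree_add_le_of_degree_le hf.1 hg.1, by rw [coeff_add, hf.2, hg.2]⟩

lemma Lead.sub {f g : R[X]} {d : ℕ} {c c' : R} (hf : Lead f d c) (hg : Lead g d c') :
    Lead (f - g) d (c - c') :=
  ⟨(natDegree_sub_le_of_le hf.1 hg.1).trans (by simp), by rw [coeff_sub, hf.2, hg.2]⟩

lemma Lead.pow {f : R[X]} {d : ℕ} {c : R} (hf : Lead f d c) (n : ℕ) :
    Lead (f ^ n) (n * d) (c ^ n) :=
  ⟨natDegree_pow_le_of_le n hf.1, by
    rw [coeff_pow_of_natDegree_le hf.1, hf.2]⟩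

lemma Lead.mono {f : R[X]} {d d' : ℕ} {c : R} (hf : Lead f d c) (h : d < d') : Lead f d' 0 :=
  ⟨hf.1.trans h.le, coeff_eq_zero_of_natDegree_lt (lt_of_le_of_lt hf.1 h)⟩

lemma Lead.congr {f : R[X]} {d d' : ℕ} {c c' : R} (hf : Lead f d c) (hd : d = d') (hc : c = c') :
    Lead f d' c' := by
  subst hd hc; exact hf

lemma lead_X : Lead (X : R[X]) 1 1 := ⟨natDegree_X_le, coeff_X_one⟩

lemma lead_C (a : R) : Lead (C a) 0 a := ⟨(natDegree_C a).le, coeff_C_zero⟩

lemma lead_one : Lead (1 : R[X]) 0 1 := by simpa using lead_C (1 : R)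

lemma lead_two : Lead (2 : R[X]) 0 2 := by
  have h : (2 : R[X]) = C (2 : R) := (map_ofNat C 2).symm
  rw [h]
  exact lead_C (2 : R)

lemma Lead.ne_zero {f : R[X]} {d : ℕ} {c : R} (hf : Lead f d c) (hc : c ≠ 0) : f ≠ 0 := by
  rintro rfl
  exact hc (by simpa using hf.2.symm)

lemma Lead.natDegree_eq {f : R[X]} {d : ℕ} {c : R} (hf : Lead f d c) (hc : c ≠ 0) :
    f.natDegree = d :=
  le_antisymm hf.1 (le_natDegree_of_ne_zero (by rw [hf.2]; exact hc))

lemma Lead.leadingCoeff_eq {f : R[X]} {d : ℕ} {c : R} (hf : Lead f d c) (hc : c ≠ 0) :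
    f.leadingCoeff = c := by
  rw [leadingCoeff, hf.natDegree_eq hc, hf.2]

end Lead

/-- Degree of `ladG W n`. -/
def ladDeg : ℕ → ℕ
  | 0 => 0
  | 1 => 0
  | 2 => 3
  | (k + 3) => 2 * ladDeg (k + 2) + 2 + ladDeg (k + 1)

/-- Leading coefficient of `ladF W n`. -/
def ladLead : ℕ → ℕ
  | 0 => 1
  | 1 => 1
  | 2 => 1
  | (k + 3) => (k + 1) ^ 4 * ladLead (k + 2) ^ 2 * ladLead (k + 1)

@[simp] lemma ladDeg_one : ladDeg 1 = 0 := rfl
@[simp] lemma ladDeg_two : ladDeg 2 = 3 := rfl
lemma ladDeg_add_three (k : ℕ) : ladDeg (k + 3) = 2 * ladDeg (k + 2) + 2 + ladDeg (k + 1) := rfl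
@[simp] lemma ladLead_one : ladLead 1 = 1 := rfl
@[simp] lemma ladLead_two : ladLead 2 = 1 := rfl
lemma ladLead_add_three (k : ℕ) :
    ladLead (k + 3) = (k + 1) ^ 4 * ladLead (k + 2) ^ 2 * ladLead (k + 1) := rfl

lemma ladLead_pos (n : ℕ) : 0 < ladLead n := by
  induction n using Nat.strong_induction_on with
  | _ n ih =>
    match n with
    | 0 => decide
    | 1 => decide
    | 2 => decide
    | k + 3 =>
      rw [ladLead_add_three]
      have h1 := ih (k + 2) (by omega)
      have h2 := ih (k + 1) (by omega)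
      positivity

/-- Every prime factor `q` of `ladLead n` satisfies `q + 2 ≤ n`. -/
lemma prime_dvd_ladLead {q n : ℕ} (hq : q.Prime) (h : q ∣ ladLead n) : q + 2 ≤ n := by
  induction n using Nat.strong_induction_on with
  | _ n ih =>
    match n with
    | 0 => exact absurd (Nat.le_of_dvd (by decide) h) (by have := hq.two_le; simp [ladLead]; omega)
    | 1 => exact absurd (Nat.le_of_dvd (by decide) h) (by have := hq.two_le; simp; omega)
    | 2 => exact absurd (Nat.le_of_dvd (by decide) h) (by have := hq.two_le; simp; omega)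
    | k + 3 =>
      rw [ladLead_add_three] at h
      rcases (hq.dvd_mul).mp h with h | h
      · rcases (hq.dvd_mul).mp h with h | h
        · have := hq.dvd_of_dvd_pow h
          have := Nat.le_of_dvd (by omega) this
          omega
        · have := ih (k + 2) (by omega) (hq.dvd_of_dvd_pow h)
          omega
      · have := ih (k + 1) (by omega) h
        omega

lemma not_dvd_ladLead_self {p : ℕ} (hp : p.Prime) : ¬ p ∣ ladLead p := fun h => by
  have := prime_dvd_ladLead hp h
  omega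

section Degrees

variable {R : Type*} [CommRing R] (W : WeierstrassCurve R)

lemma lead_ladF2 : Lead (ladF2 W) 4 1 := by
  refine ⟨?_, ?_⟩
  · unfold ladF2; compute_degree
  · unfold ladF2
    simp

lemma lead_ladG2 : Lead (ladG2 W) 3 4 := by
  refine ⟨?_, ?_⟩
  · unfold ladG2; compute_degree
  · unfold ladG2
    simp

lemma lead_ladD {F G : R[X]} {d : ℕ} {a b : R} (hF : Lead F (d + 1) a) (hG : Lead G d b) :
    Lead (ladD F G) (2 * d + 2) ((a - b) ^ 2) := by
  have h1 : Lead (X * G) (d + 1) b := (lead_X.mul hG).congr (by ring) (by ring)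
  exact ((hF.sub h1).pow 2).congr (by ring) rfl

lemma lead_ladN {F G : R[X]} {d : ℕ} {a b : R} (hF : Lead F (d + 1) a) (hG : Lead G d b) :
    Lead (ladN W F G) (2 * d + 3) (2 * a * (a + b)) := by
  have hXG : Lead (X * G) (d + 1) b := (lead_X.mul hG).congr (by ring) (by ring)
  have hsum : Lead (F + X * G) (d + 1) (a + b) := hF.add hXG
  have t1 : Lead (2 * F * X * (F + X * G)) (2 * d + 3) (2 * a * (a + b)) :=
    (((lead_two.mul hF).mul lead_X).mul hsum).congr (by ring) (by ring)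
  have t2 : Lead (C W.b₂ * F * G * X) (2 * d + 3) 0 :=
    ((((lead_C W.b₂).mul hF).mul hG).mul lead_X).mono (by omega)
  have t3 : Lead (C W.b₄ * (F + X * G) * G) (2 * d + 3) 0 :=
    (((lead_C W.b₄).mul hsum).mul hG).mono (by omega)
  have t4 : Lead (C W.b₆ * G ^ 2) (2 * d + 3) 0 :=
    ((lead_C W.b₆).mul (hG.pow 2)).mono (by omega)
  have := ((t1.add t2).add t3).add t4
  simpa [ladN] using this

theorem lead_lad (n : ℕ) (hn : 1 ≤ n) :
    Lead (ladF W n) (ladDeg n + 1) (ladLead n : R) ∧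
      Lead (ladG W n) (ladDeg n) ((n ^ 2 * ladLead n : ℕ) : R) := by
  have key : ∀ k : ℕ,
      (Lead (ladF W (k + 1)) (ladDeg (k + 1) + 1) (ladLead (k + 1) : R) ∧
        Lead (ladG W (k + 1)) (ladDeg (k + 1)) (((k + 1) ^ 2 * ladLead (k + 1) : ℕ) : R)) ∧
      (Lead (ladF W (k + 2)) (ladDeg (k + 2) + 1) (ladLead (k + 2) : R) ∧
        Lead (ladG W (k + 2)) (ladDeg (k + 2)) (((k + 2) ^ 2 * ladLead (k + 2) : ℕ) : R)) := by
    intro k
    induction k with
    | zero =>
      refine ⟨⟨?_, ?_⟩, ⟨?_, ?_⟩⟩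
      · simpa using (lead_X : Lead (X : R[X]) 1 1)
      · simpa using (lead_one : Lead (1 : R[X]) 0 1)
      · simpa using lead_ladF2 W
      · have := lead_ladG2 W
        simpa using this
    | succ k ih =>
      refine ⟨ih.2, ?_⟩
      obtain ⟨⟨hF1, hG1⟩, ⟨hF2, hG2⟩⟩ := ih
      have hD := lead_ladD hF2 hG2
      have hN := lead_ladN W hF2 hG2
      refine ⟨?_, ?_⟩
      · rw [show k + 1 + 2 = k + 3 from rfl, ladF_add_three]
        have hA := hN.mul hG1
        have hB : Lead (ladF W (k + 1) * ladD (ladF W (k + 2)) (ladG W (k + 2)))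
            (2 * ladDeg (k + 2) + 3 + ladDeg (k + 1)) _ := (hF1.mul hD).congr (by ring) rfl
        refine (hA.sub hB).congr ?_ ?_
        · rw [ladDeg_add_three]; ring
        · rw [ladLead_add_three]; push_cast; ring
      · rw [show k + 1 + 2 = k + 3 from rfl, ladG_add_three]
        refine (hD.mul hG1).congr ?_ ?_
        · rw [ladDeg_add_three]
        · rw [ladLead_add_three]; push_cast; ring
  obtain ⟨k, rfl⟩ : ∃ k, n = k + 1 := ⟨n - 1, by omega⟩
  exact (key k).1

/-- Over a ring of characteristic zero without zero divisors the ladder denominators are nonzero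
and have the expected degree and leading coefficient. -/
theorem natDegree_ladG [IsDomain R] [CharZero R] (n : ℕ) (hn : 1 ≤ n) :
    (ladG W n).natDegree = ladDeg n ∧ (ladG W n).leadingCoeff = ((n ^ 2 * ladLead n : ℕ) : R) := by
  have h := (lead_lad W n hn).2
  have hc : ((n ^ 2 * ladLead n : ℕ) : R) ≠ 0 := by
    rw [Nat.cast_ne_zero]
    have := ladLead_pos n
    positivity
  exact ⟨h.natDegree_eq hc, h.leadingCoeff_eq hc⟩

theorem natDegree_ladF [IsDomain R] [CharZero R] (n : ℕ) (hn : 1 ≤ n) :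
    (ladF W n).natDegree = ladDeg n + 1 ∧ (ladF W n).leadingCoeff = (ladLead n : R) := by
  have h := (lead_lad W n hn).1
  have hc : ((ladLead n : ℕ) : R) ≠ 0 := by
    rw [Nat.cast_ne_zero]
    exact (ladLead_pos n).ne'
  exact ⟨h.natDegree_eq hc, h.leadingCoeff_eq hc⟩

theorem ladG_ne_zero [IsDomain R] [CharZero R] (n : ℕ) (hn : 1 ≤ n) : ladG W n ≠ 0 := by
  have h := (lead_lad W n hn).2
  refine h.ne_zero ?_
  rw [Nat.cast_ne_zero]
  have := ladLead_pos n
  positivity

theorem ladF_ne_zero [IsDomain R] [CharZero R] (n : ℕ) (hn : 1 ≤ n) : ladF W n ≠ 0 := by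
  have h := (lead_lad W n hn).1
  refine h.ne_zero ?_
  rw [Nat.cast_ne_zero]
  exact (ladLead_pos n).ne'

end Degrees

section Map

variable {R S : Type*} [CommRing R] [CommRing S] (W : WeierstrassCurve R) (f : R →+* S)

lemma map_ladD (F G : R[X]) : (ladD F G).map f = ladD (F.map f) (G.map f) := by
  simp [ladD]

lemma map_ladN (F G : R[X]) : (ladN W F G).map f = ladN (W.map f) (F.map f) (G.map f) := by
  simp [ladN, WeierstrassCurve.map_b₂, WeierstrassCurve.map_b₄, WeierstrassCurve.map_b₆]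

lemma map_ladF2 : (ladF2 W).map f = ladF2 (W.map f) := by
  simp [ladF2, WeierstrassCurve.map_b₄, WeierstrassCurve.map_b₆, WeierstrassCurve.map_b₈,
    map_ofNat f]

lemma map_ladG2 : (ladG2 W).map f = ladG2 (W.map f) := by
  simp [ladG2, WeierstrassCurve.map_b₂, WeierstrassCurve.map_b₄, WeierstrassCurve.map_b₆,
    map_ofNat f]

theorem map_lad (n : ℕ) (hn : 1 ≤ n) :
    (ladF W n).map f = ladF (W.map f) n ∧ (ladG W n).map f = ladG (W.map f) n := by
  have key : ∀ k : ℕ,
      ((ladF W (k + 1)).map f = ladF (W.map f) (k + 1) ∧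
        (ladG W (k + 1)).map f = ladG (W.map f) (k + 1)) ∧
      ((ladF W (k + 2)).map f = ladF (W.map f) (k + 2) ∧
        (ladG W (k + 2)).map f = ladG (W.map f) (k + 2)) := by
    intro k
    induction k with
    | zero =>
      refine ⟨⟨by simp, by simp⟩, ⟨?_, ?_⟩⟩
      · simpa using map_ladF2 W f
      · simpa using map_ladG2 W f
    | succ k ih =>
      refine ⟨ih.2, ?_⟩
      obtain ⟨⟨hF1, hG1⟩, ⟨hF2, hG2⟩⟩ := ih
      refine ⟨?_, ?_⟩
      · rw [show k + 1 + 2 = k + 3 from rfl, ladF_add_three, ladF_add_three, Polynomial.map_sub,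
          Polynomial.map_mul, Polynomial.map_mul, map_ladN, map_ladD, hF1, hG1, hF2, hG2]
      · rw [show k + 1 + 2 = k + 3 from rfl, ladG_add_three, ladG_add_three,
          Polynomial.map_mul, map_ladD, hG1, hF2, hG2]
  obtain ⟨k, rfl⟩ : ∃ k, n = k + 1 := ⟨n - 1, by omega⟩
  exact (key k).1

end Map

end Fermat.Agent.Torsion
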