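import Mathlib
import Fermat.Agent.MUL.Orig.Lib.Torsion.CountBasic
import Fermat.Agent.MUL.F3.I2.Kappa.KappaC

/-!
# Reduced form of the ladder fraction and surjectivity of multiplication by `n`
-/

set_option autoImplicit false

namespace Fermat.Agent.Torsion

open Polynomial S05H65

section Reduce

variable {K : Type*} [Field K]

/-- Any fraction of polynomials can be put in lowest terms. -/
lemma exists_reduced (F G : K[X]) (hG : G ≠ 0) :
    ∃ Q F' G' : K[X], F = Q * F' ∧ G = Q * G' ∧ IsCoprime F' G' := by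
  classical
  obtain ⟨F', hF'⟩ := EuclideanDomain.gcd_dvd_left F G
  obtain ⟨G', hG'⟩ := EuclideanDomain.gcd_dvd_right F G
  have hb := EuclideanDomain.gcd_eq_gcd_ab F G
  generalize EuclideanDomain.gcd F G = Q at hF' hG' hb
  generalize EuclideanDomain.gcdA F G = A at hb
  generalize EuclideanDomain.gcdB F G = B at hb
  have hQ0 : Q ≠ 0 := by
    rintro rfl
    rw [zero_mul] at hG'
    exact hG hG'
  refine ⟨Q, F', G', hF', hG', A, B, ?_⟩
  apply mul_left_cancel₀ hQ0
  linear_combination (-1 : K[X]) * hb - A * hF' - B * hG'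

/-- A reduced presentation `F = Q F'`, `G = Q G'` with `F'`, `G'` coprime. -/
structure IsReduced (F G Q F' G' : K[X]) : Prop where
  eqF : F = Q * F'
  eqG : G = Q * G'
  cop : IsCoprime F' G'

variable {F G Q F' G' : K[X]}

lemma IsReduced.Q_ne_zero (h : IsReduced F G Q F' G') (hG : G ≠ 0) : Q ≠ 0 := by
  rintro rfl
  exact hG (by rw [h.eqG, zero_mul])

lemma IsReduced.G'_ne_zero (h : IsReduced F G Q F' G') (hG : G ≠ 0) : G' ≠ 0 := by
  rintro rfl
  exact hG (by rw [h.eqG, mul_zero])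

lemma IsReduced.F'_ne_zero (h : IsReduced F G Q F' G') (hF : F ≠ 0) : F' ≠ 0 := by
  rintro rfl
  exact hF (by rw [h.eqF, mul_zero])

lemma IsReduced.natDegree_F' (h : IsReduced F G Q F' G') (hF : F ≠ 0) (hG : G ≠ 0)
    (hdeg : F.natDegree = G.natDegree + 1) : F'.natDegree = G'.natDegree + 1 := by
  have hQ := h.Q_ne_zero hG
  have h1 : F.natDegree = Q.natDegree + F'.natDegree := by
    rw [h.eqF, natDegree_mul hQ (h.F'_ne_zero hF)]
  have h2 : G.natDegree = Q.natDegree + G'.natDegree := by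
    rw [h.eqG, natDegree_mul hQ (h.G'_ne_zero hG)]
  omega

lemma IsReduced.not_both_zero (h : IsReduced F G Q F' G') (c : K) :
    ¬ (F'.eval c = 0 ∧ G'.eval c = 0) := by
  rintro ⟨h1, h2⟩
  obtain ⟨a, b, hab⟩ := h.cop
  have := congrArg (Polynomial.eval c) hab
  simp [h1, h2] at this

end Reduce

section Surj

variable {K : Type*} [Field K] [DecidableEq K] {W : WeierstrassCurve.Affine K}
variable {n : ℕ} {Q F' G' : K[X]}

/-- The finite set of values `x₀` that have to be avoided. -/
noncomputable def badVal (Q F' G' : K[X]) : Finset K :=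
  Q.roots.toFinset.image fun c => F'.eval c / G'.eval c

/-- Away from `badVal`, roots of `F' - x₀ G'` are not roots of `G`. -/
lemma ladG_eval_ne_zero_of_root (h : IsReduced (ladF W n) (ladG W n) Q F' G')
    (hG : ladG W n ≠ 0) {x₀ : K} (hx₀ : x₀ ∉ badVal Q F' G') {c : K}
    (hc : (F' - C x₀ * G').eval c = 0) : (ladG W n).eval c ≠ 0 := by
  have hc' : F'.eval c = x₀ * G'.eval c := by
    simpa [sub_eq_zero] using hc
  have hG'c : G'.eval c ≠ 0 := by
    intro h0
    exact h.not_both_zero c ⟨by rw [hc', h0, mul_zero], h0⟩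
  have hQc : Q.eval c ≠ 0 := by
    intro h0
    apply hx₀
    rw [badVal, Finset.mem_image]
    refine ⟨c, ?_, ?_⟩
    · rw [Multiset.mem_toFinset, mem_roots (h.Q_ne_zero hG)]
      exact h0
    · rw [hc', mul_div_assoc, div_self hG'c, mul_one]
  rw [h.eqG, eval_mul]
  exact mul_ne_zero hQc hG'c

/-- If `G_n(x(P)) ≠ 0` then `n • P ≠ 0` and the reduced fraction computes `x(n • P)`. -/
lemma reduced_eval (h : IsReduced (ladF W n) (ladG W n) Q F' G') (hn : 1 ≤ n)
    {P : W.Point} (hP : P ≠ 0) (hGP : (ladG W n).eval (px P) ≠ 0) :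
    n • P ≠ 0 ∧ F'.eval (px P) = px (n • P) * G'.eval (px P) ∧ G'.eval (px P) ≠ 0 := by
  have hnP : n • P ≠ 0 := fun h0 => hGP (ladG_eval_eq_zero_of_smul_eq_zero hP hn h0)
  have hF := ladF_eval_eq hP hn hnP
  rw [h.eqF, h.eqG, eval_mul, eval_mul] at hF
  rw [h.eqG, eval_mul] at hGP
  have hQ : Q.eval (px P) ≠ 0 := left_ne_zero_of_mul hGP
  refine ⟨hnP, ?_, right_ne_zero_of_mul hGP⟩
  apply mul_left_cancel₀ hQ
  rw [hF]; ring

end Surj

section AlgClosed

variable {K : Type*} [Field K] [DecidableEq K] [IsAlgClosed K] [CharZero K]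
variable {W : WeierstrassCurve.Affine K} {n : ℕ} {Q F' G' : K[X]}

lemma natDegree_sub_C_mul (hdeg : F'.natDegree = G'.natDegree + 1) (x₀ : K) :
    (F' - C x₀ * G').natDegree = F'.natDegree := by
  apply natDegree_sub_eq_left_of_natDegree_lt
  calc (C x₀ * G').natDegree ≤ G'.natDegree := natDegree_C_mul_le _ _
    _ < F'.natDegree := by omega

lemma exists_root_sub_C_mul (hdeg : F'.natDegree = G'.natDegree + 1) (x₀ : K) :
    ∃ c : K, (F' - C x₀ * G').eval c = 0 := by
  have hd := natDegree_sub_C_mul hdeg x₀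
  have : (F' - C x₀ * G').degree ≠ 0 := by
    intro h0
    have := natDegree_eq_of_degree_eq_some (n := 0) (by simpa using h0)
    omega
  exact IsAlgClosed.exists_root _ this

/-- Generic surjectivity: away from `badVal`, `x₀` is the `x`-coordinate of some `n • P`. -/
lemma exists_smul_px_eq (hΔ : W.Δ ≠ 0) (hn : 1 ≤ n)
    (h : IsReduced (ladF W n) (ladG W n) Q F' G') {x₀ : K} (hx₀ : x₀ ∉ badVal Q F' G') :
    ∃ P : W.Point, P ≠ 0 ∧ n • P ≠ 0 ∧ px (n • P) = x₀ := by
  have hG := ladG_ne_zero W n hn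
  have hF := ladF_ne_zero W n hn
  have hdeg : F'.natDegree = G'.natDegree + 1 :=
    h.natDegree_F' hF hG (by rw [(natDegree_ladF W n hn).1, (natDegree_ladG W n hn).1])
  obtain ⟨c, hc⟩ := exists_root_sub_C_mul hdeg x₀
  have hGc := ladG_eval_ne_zero_of_root h hG hx₀ hc
  set P := pointOver hΔ c with hPdef
  have hP : P ≠ 0 := pointOver_ne_zero hΔ c
  have hpx : px P = c := px_pointOver hΔ c
  rw [← hpx] at hGc hc
  obtain ⟨hnP, hev, hG'⟩ := reduced_eval h hn hP hGc
  refine ⟨P, hP, hnP, ?_⟩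
  have hc' : F'.eval (px P) = x₀ * G'.eval (px P) := by
    simpa [sub_eq_zero] using hc
  rw [hev] at hc'
  exact mul_right_cancel₀ hG' hc'

/-- Multiplication by `n ≥ 1` is surjective on points (algebraically closed, characteristic 0). -/
theorem smul_surjective (hΔ : W.Δ ≠ 0) (hn : 1 ≤ n) :
    Function.Surjective fun P : W.Point => n • P := by
  have : Infinite W.Point := infinite_point hΔ
  obtain ⟨Q, F', G', hF, hG, hcop⟩ := exists_reduced (ladF W n) (ladG W n) (ladG_ne_zero W n hn)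
  have h : IsReduced (ladF W n) (ladG W n) Q F' G' := ⟨hF, hG, hcop⟩
  let H : AddSubgroup W.Point := (nsmulAddMonoidHom (α := W.Point) n).range
  have hH : H = ⊤ := by
    apply addSubgroup_eq_top_of_finite_compl
    refine (finite_px_mem (W := W) (badVal Q F' G' : Set K) (Finset.finite_toSet _)).subset ?_
    intro R hR
    have hR0 : R ≠ 0 := by
      rintro rfl
      exact hR (zero_mem H)
    refine ⟨hR0, ?_⟩
    by_contra hbad
    obtain ⟨P, hP, hnP, hpx⟩ := exists_smul_px_eq hΔ hn h (x₀ := px R) (by simpa using hbad)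
    apply hR
    rcases eq_or_eq_neg_of_px_eq hnP hR0 hpx with h1 | h1
    · exact ⟨P, h1⟩
    · refine ⟨-P, ?_⟩
      show n • (-P) = R
      rw [smul_neg, h1, neg_neg]
  intro R
  have : R ∈ H := hH ▸ AddSubgroup.mem_top R
  obtain ⟨P, hP⟩ := this
  exact ⟨P, hP⟩

end AlgClosed

end Fermat.Agent.Torsion
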